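import Fermat.Agent.S16x.Up2.H6_TwoB
import Fermat.Agent.S16x.Conj.H3_Final
import Fermat.Agent.S16x.L1.H13_Final

/-!
# S16, leaf [UP2b] (helper6): `Asm.StUP2b p` from the single remaining [CONJ] leaf `Conj.StTwo p`

All other inputs of `h6_stUP2b_of` are on main (`Conj.H3.stMain`, `stInfty`, `stRing`, `stNice`,
`stDescent`, `L1.H13.stORD`).
-/

set_option autoImplicit false

namespace Fermat.Agent.S16x.Up2

/-- **[UP2b]** modulo `Conj.StTwo p` only. -/
theorem h6_stUP2b_of_two (p : ℕ) [Fact p.Prime] (hTwo : Conj.StTwo p) : Asm.StUP2b p :=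
  h6_stUP2b_of p (Conj.H3.stMain p) (Conj.H3.stInfty p) hTwo (Conj.H3.stRing p)
    (Conj.H3.stNice p) (Conj.H3.stDescent p) L1.H13.stORD

end Fermat.Agent.S16x.Up2
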