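import Mathlib

/-!
# S16, upper bound at `ℓ = 2`, `p ≡ 3 mod 4` (helper6): the quartic identity modulo `512`

Pure commutative algebra.  In any commutative ring `A` let
`S₃ = S + 24 T`, `E₄ = 1 + 240 S₃`, `E₆ = 1 - 504 S`, `1728 D = E₄ ^ 3 - E₆ ^ 2`
(in the application: `S = ∑ σ₅(n) qⁿ`, `S₃ = ∑ σ₃(n) qⁿ`, `D = Δ`).
For `X = u + 8 g` with `u ∈ {1, 5}`:

`27 X ^ 4 - 18 E₄ X ^ 2 - 8 E₆ X - E₄ ^ 2 = 256 D + 512 W`

with an explicit `W`.  (The statement is multiplied by `1728` so that no torsion-freeness is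
needed here.)
-/

set_option autoImplicit false

namespace Fermat.Agent.S16x.Up2.H6

variable {A : Type*} [CommRing A]

/-- The quartic `27 X⁴ - 18 E₄ X² - 8 E₆ X - E₄²` (up to the factor `27`, the polynomial whose
roots are the four conjugates of the Eisenstein series of weight `2` and level `3`). -/
def quartic (E4 E6 X : A) : A := 27 * X ^ 4 - 18 * E4 * X ^ 2 - 8 * E6 * X - E4 ^ 2

/-- The explicit correction term for `u = 1`. -/
def corrOne (g T S : A) : A :=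
  -2 * S - 230 * T + g - 89 * S ^ 2 - 7800 * T * S - 93600 * T ^ 2 - 72 * g * S
    - 3240 * g * T + 18 * g ^ 2 - 4000 * S ^ 3 - 288000 * T * S ^ 2 - 6912000 * T ^ 2 * S
    - 55296000 * T ^ 3 - 540 * g ^ 2 * S - 12960 * g ^ 2 * T + 108 * g ^ 3 + 216 * g ^ 4

/-- The explicit correction term for `u = 5`. -/
def corrFive (g T S : A) : A :=
  32 - 173 * S - 5090 * T + 208 * g - 89 * S ^ 2 - 7800 * T * S - 93600 * T ^ 2
    - 612 * g * S - 16200 * g * T + 504 * g ^ 2 - 4000 * S ^ 3 - 288000 * T * S ^ 2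
    - 6912000 * T ^ 2 * S - 55296000 * T ^ 3 - 540 * g ^ 2 * S - 12960 * g ^ 2 * T
    + 540 * g ^ 3 + 216 * g ^ 4

/-- `Δ` as a polynomial in `S = S₅` and `T = (S₃ - S₅) / 24`. -/
def deltaPoly (T S : A) : A :=
  S + 10 * T - 47 * S ^ 2 + 4800 * T * S + 57600 * T ^ 2 + 8000 * S ^ 3 + 576000 * T * S ^ 2
    + 13824000 * T ^ 2 * S + 110592000 * T ^ 3

theorem eisenstein_cube_sub_sq (T S : A) :
    (1 + 240 * (S + 24 * T)) ^ 3 - (1 - 504 * S) ^ 2 = 1728 * deltaPoly T S := by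
  unfold deltaPoly; ring

theorem quartic_one (g T S : A) :
    quartic (1 + 240 * (S + 24 * T)) (1 - 504 * S) (1 + 8 * g) =
      256 * deltaPoly T S + 512 * corrOne g T S := by
  unfold quartic deltaPoly corrOne; ring

theorem quartic_five (g T S : A) :
    quartic (1 + 240 * (S + 24 * T)) (1 - 504 * S) (5 + 8 * g) =
      256 * deltaPoly T S + 512 * corrFive g T S := by
  unfold quartic deltaPoly corrFive; ring

/-- `Δ ≡ S + S² mod 2`. -/
theorem deltaPoly_eq (T S : A) :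
    deltaPoly T S = S + S ^ 2 + 2 * (5 * T - 24 * S ^ 2 + 2400 * T * S + 28800 * T ^ 2
      + 4000 * S ^ 3 + 288000 * T * S ^ 2 + 6912000 * T ^ 2 * S + 55296000 * T ^ 3) := by
  unfold deltaPoly; ring

/-- **The quartic identity, hypothesis form.**  If `1728 D = E₄³ - E₆²`, `E₄ = 1 + 240 S₃`,
`E₆ = 1 - 504 S`, `S₃ = S + 24 T` and `X = u + 8 g` with `u = 1` or `u = 5`, then
`1728 * quartic = 1728 * (256 D + 512 W)` for some `W`. -/
theorem quartic_mod (E4 E6 D S3 S T X g u : A) (hE4 : E4 = 1 + 240 * S3)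
    (hE6 : E6 = 1 - 504 * S) (hS : S3 = S + 24 * T) (hD : 1728 * D = E4 ^ 3 - E6 ^ 2)
    (hX : X = u + 8 * g) (hu : u = 1 ∨ u = 5) :
    ∃ W : A, 1728 * quartic E4 E6 X = 1728 * (256 * D + 512 * W) := by
  have hD' : 1728 * D = 1728 * deltaPoly T S := by
    rw [hD, hE4, hE6, hS]; exact eisenstein_cube_sub_sq T S
  rcases hu with rfl | rfl
  · refine ⟨corrOne g T S, ?_⟩
    rw [hE4, hE6, hS, hX, quartic_one]
    linear_combination (-256 : A) * hD'
  · refine ⟨corrFive g T S, ?_⟩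
    rw [hE4, hE6, hS, hX, quartic_five]
    linear_combination (-256 : A) * hD'

/-- The same when `1728` is a non-zero-divisor (e.g. `A` a ring of power series over a
subring of `ℂ`). -/
theorem quartic_mod' (h1728 : ∀ a b : A, 1728 * a = 1728 * b → a = b)
    (E4 E6 D S3 S T X g u : A) (hE4 : E4 = 1 + 240 * S3)
    (hE6 : E6 = 1 - 504 * S) (hS : S3 = S + 24 * T) (hD : 1728 * D = E4 ^ 3 - E6 ^ 2)
    (hX : X = u + 8 * g) (hu : u = 1 ∨ u = 5) :
    ∃ W : A, quartic E4 E6 X = 256 * D + 512 * W := by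
  obtain ⟨W, hW⟩ := quartic_mod E4 E6 D S3 S T X g u hE4 hE6 hS hD hX hu
  exact ⟨W, h1728 _ _ hW⟩

end Fermat.Agent.S16x.Up2.H6
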