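import Mathlib
import Fermat.Agent.S16x.Asm.H6_Int
import Fermat.Agent.S16x.Conj.Defs
import Fermat.Agent.S16x.L1.Defs

/-!
# S16, packages [UP2b] / [UP3b] (helper6): the norm/order step

`p` prime, `H ∈ M_k(Γ₀(p))`, `ℓ ∣ 24`.  If every conjugate `H ∣ rep x` (`x ∈ ℙ¹(𝔽_p)`) has a
`t`-expansion (`t = q^{1/p}`) which is congruent modulo `ℓ` (in the ring of `ℓ`-integral
algebraic numbers) to `B_x(t^p)` for an `ℓ`-integral series `B_x`, then the norm
`N(H) ∈ M_{k(p+1)}(SL₂(ℤ))` has `q`-expansion `≡ ∏ B_x` modulo `ℓ`; so by the Sturm bound modulo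
`ℓ` (`L1.StORD`) the order modulo `ℓ` of `∏ B_x` is at most `k (p + 1) / 12`.

Hypotheses: `Conj.StMain p` (the `q`-expansion of the norm) and `L1.StORD`.
-/

set_option autoImplicit false

open UpperHalfPlane ModularForm CongruenceSubgroup PowerSeries

open scoped MatrixGroups ModularForm Manifold

noncomputable section

namespace Fermat.Agent.S16x.Up2

/-- `ℓ * intL ℓ [[q]] ⊆ intL ℓ [[q]]`. -/
theorem h6_psInt_of_psMul {ℓ : ℕ} {F : PowerSeries ℂ} (hF : F ∈ psMul ℓ (ℓ : ℂ)) :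
    F ∈ psInt ℓ := by
  intro n
  obtain ⟨r, hr, e⟩ := hF n
  rw [e]
  exact Subring.mul_mem _ (natCast_mem_intL ℓ ℓ) hr

/-- Congruences modulo `ℓ` multiply. -/
theorem h6_mul_sub_mul_mem {ℓ : ℕ} {a a' b b' : PowerSeries ℂ} (hb : b ∈ psInt ℓ)
    (ha' : a' ∈ psInt ℓ) (h : a - b ∈ psMul ℓ (ℓ : ℂ)) (h' : a' - b' ∈ psMul ℓ (ℓ : ℂ)) :
    a * a' - b * b' ∈ psMul ℓ (ℓ : ℂ) := by
  have e : a * a' - b * b' = (a - b) * a' + b * (a' - b') := by ring
  rw [e]
  exact (psMul ℓ _).add_mem (mul_mem_psMul' h ha') (mul_mem_psMul hb h')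

/-- Congruences modulo `ℓ` of finite products. -/
theorem h6_prod_sub_prod_mem {ι : Type*} (s : Finset ι) {ℓ : ℕ} (a b : ι → PowerSeries ℂ)
    (hb : ∀ x ∈ s, b x ∈ psInt ℓ) (hab : ∀ x ∈ s, a x - b x ∈ psMul ℓ (ℓ : ℂ)) :
    (∏ x ∈ s, a x) - ∏ x ∈ s, b x ∈ psMul ℓ (ℓ : ℂ) := by
  classical
  induction s using Finset.induction_on with
  | empty => simp
  | insert x s hx ih =>
    rw [Finset.prod_insert hx, Finset.prod_insert hx]
    have hs : (∏ y ∈ s, a y) - ∏ y ∈ s, b y ∈ psMul ℓ (ℓ : ℂ) :=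
      ih (fun y hy => hb y (Finset.mem_insert_of_mem hy))
        (fun y hy => hab y (Finset.mem_insert_of_mem hy))
    have hbs : ∏ y ∈ s, b y ∈ psInt ℓ :=
      Subring.prod_mem _ fun y hy => hb y (Finset.mem_insert_of_mem hy)
    have has : ∏ y ∈ s, a y ∈ psInt ℓ := by
      have := (psInt ℓ).add_mem (h6_psInt_of_psMul hs) hbs
      simpa using this
    exact h6_mul_sub_mul_mem (hb x (Finset.mem_insert_self x s)) has
      (hab x (Finset.mem_insert_self x s)) hs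

/-- The top elementary symmetric function is the product. -/
theorem h6_esymm_univ {ι : Type*} [Fintype ι] {A : Type*} [CommSemiring A] (f : ι → A) :
    ((Finset.univ : Finset ι).val.map f).esymm (Fintype.card ι) = ∏ x, f x := by
  rw [Finset.esymm_map_val, ← Finset.card_univ, Finset.powersetCard_self]
  simp

theorem h6_card_onePoint (p : ℕ) [NeZero p] : Fintype.card (OnePoint (ZMod p)) = p + 1 := by
  have : Fintype.card (OnePoint (ZMod p)) = Fintype.card (Option (ZMod p)) :=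
    Fintype.card_congr (Equiv.refl _)
  rw [this, Fintype.card_option, ZMod.card]

/-- **The norm/order step.** -/
theorem h6_norm_order (p : ℕ) [Fact p.Prime] (hMain : Conj.StMain p) (hORD : L1.StORD)
    (ℓ : ℕ) (hℓ : ℓ ∣ 24) (k : ℤ) (H : ModularForm (Gamma0 p) k)
    (B : OnePoint (ZMod p) → PowerSeries ℂ) (hB : ∀ x, B x ∈ psInt ℓ)
    (hH : ∀ x, Conj.tExp p (Conj.cj p k H x) -
      PowerSeries.expand p (Fact.out : p.Prime).ne_zero (B x) ∈ psMul ℓ (ℓ : ℂ))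
    (m : ℕ) (hlow : ∀ n < m, ∃ r ∈ intL ℓ, coeff n (∏ x, B x) = (ℓ : ℂ) * r)
    (hm : ¬ ∃ r ∈ intL ℓ, coeff m (∏ x, B x) = (ℓ : ℂ) * r) :
    12 * (m : ℤ) ≤ k * ((p + 1 : ℕ) : ℤ) := by
  have : NeZero p := ⟨(Fact.out : p.Prime).ne_zero⟩
  have hp0 : p ≠ 0 := (Fact.out : p.Prime).ne_zero
  set N := Fermat.Agent.S23.esymmMF H (p + 1) with hN
  -- the expansion of the norm
  have h1 : PowerSeries.expand p hp0 (qExpansion 1 N) =
      ∏ x, Conj.tExp p (Conj.cj p k H x) := by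
    have := hMain k H (p + 1)
    rw [← h6_card_onePoint p, h6_esymm_univ] at this
    rw [hN, ← h6_card_onePoint p]
    exact this
  -- integrality of the expanded `B`
  have hexp : ∀ F : PowerSeries ℂ, F ∈ psInt ℓ → PowerSeries.expand p hp0 F ∈ psInt ℓ := by
    intro F hF n
    rw [PowerSeries.coeff_expand]
    split_ifs
    · exact hF _
    · exact Subring.zero_mem _
  have h2 : (∏ x, Conj.tExp p (Conj.cj p k H x)) -
      ∏ x, PowerSeries.expand p hp0 (B x) ∈ psMul ℓ (ℓ : ℂ) :=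
    h6_prod_sub_prod_mem Finset.univ _ _ (fun x _ => hexp _ (hB x)) (fun x _ => hH x)
  have h3 : PowerSeries.expand p hp0 (qExpansion 1 N - ∏ x, B x) ∈ psMul ℓ (ℓ : ℂ) := by
    rw [map_sub, h1, map_prod]
    exact h2
  have h4 : qExpansion 1 N - ∏ x, B x ∈ psMul ℓ (ℓ : ℂ) := by
    intro n
    obtain ⟨r, hr, e⟩ := h3 (p * n)
    rw [PowerSeries.coeff_expand_mul] at e
    exact ⟨r, hr, e⟩
  have hBp : ∏ x, B x ∈ psInt ℓ := Subring.prod_mem _ fun x _ => hB x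
  have h5 : qExpansion 1 N ∈ psInt ℓ := by
    have := (psInt ℓ).add_mem (h6_psInt_of_psMul h4) hBp
    simpa using this
  have key := hORD (intL ℓ) ℓ hℓ (k * ((p + 1 : ℕ) : ℤ)) N (fun n => h5 n) m ?_ ?_
  · exact key
  · intro n hn
    obtain ⟨r, hr, e⟩ := hlow n hn
    obtain ⟨r', hr', e'⟩ := h4 n
    refine ⟨r' + r, Subring.add_mem _ hr' hr, ?_⟩
    rw [map_sub, e] at e'
    linear_combination e'
  · rintro ⟨r, hr, e⟩
    apply hm
    obtain ⟨r', hr', e'⟩ := h4 m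
    refine ⟨r - r', Subring.sub_mem _ hr hr', ?_⟩
    rw [map_sub, e] at e'
    linear_combination -e'

end Fermat.Agent.S16x.Up2
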