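import Mathlib
import Fermat.Agent.S16x.Asm.H6_Int
import Fermat.Agent.S16x.L1.H15_Int
import Fermat.Agent.S16x.Up2.H6_Alg
import Fermat.Agent.S16x.Up2.H6_NormOrd
import Fermat.Agent.S23.H14_LevelOne

/-!
# S16, leaf [UP2b] (helper6): the quartic modulo `2` on power series

With `e = PowerSeries.expand p` (`q = t^p`), `X = u + 8 g` (`u ∈ {1, 5}`, `g` `2`-integral):

`(1/256) (27 X⁴ - 18 E₄(t^p) X² - 8 E₆(t^p) X - E₄(t^p)²) ≡ Δ(t^p)  mod 2`.
-/

set_option autoImplicit false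

open PowerSeries

noncomputable section

namespace Fermat.Agent.S16x.Up2

open ArithmeticFunction

theorem h6_dvd_pow (d : ℤ) : (24 : ℤ) ∣ d ^ 3 - d ^ 5 := by
  have h : ∀ x : ZMod 24, x ^ 3 - x ^ 5 = 0 := by decide
  have h1 := h (d : ZMod 24)
  have h2 : ((d ^ 3 - d ^ 5 : ℤ) : ZMod 24) = 0 := by
    push_cast
    exact h1
  exact (ZMod.intCast_zmod_eq_zero_iff_dvd _ 24).mp h2

theorem h6_sigma_dvd (n : ℕ) : (24 : ℤ) ∣ ((sigma 3 n : ℕ) : ℤ) - ((sigma 5 n : ℕ) : ℤ) := by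
  rw [sigma_apply, sigma_apply]
  push_cast
  rw [← Finset.sum_sub_distrib]
  exact Finset.dvd_sum fun d _ => h6_dvd_pow d

/-- The series `(∑ σ₃(n) qⁿ - ∑ σ₅(n) qⁿ) / 24`. -/
def tSer : PowerSeries ℂ :=
  PowerSeries.mk fun n => (((((sigma 3 n : ℕ) : ℤ) - ((sigma 5 n : ℕ) : ℤ)) / 24 : ℤ) : ℂ)

theorem h6_sigmaSer_three : L1.sigmaSer 3 = L1.sigmaSer 5 + C (24 : ℂ) * tSer := by
  ext n
  obtain ⟨t, ht⟩ := h6_sigma_dvd n
  rw [map_add, coeff_C_mul, tSer, L1.sigmaSer, L1.sigmaSer, coeff_mk, coeff_mk, coeff_mk, ht,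
    Int.mul_ediv_cancel_left _ (by norm_num : (24 : ℤ) ≠ 0)]
  have : (((sigma 3 n : ℕ) : ℤ) : ℂ) - (((sigma 5 n : ℕ) : ℤ) : ℂ) = (24 : ℂ) * (t : ℂ) := by
    exact_mod_cast congrArg (fun z : ℤ => (z : ℂ)) ht
  push_cast at this
  linear_combination this

theorem h6_tSer_mem (ℓ : ℕ) : tSer ∈ psInt ℓ :=
  mem_psInt_of_int fun n => ⟨_, by rw [tSer, coeff_mk]⟩

theorem h6_sigmaSer_mem (ℓ k : ℕ) : L1.sigmaSer k ∈ psInt ℓ :=
  mem_psInt_of_int fun n => ⟨((sigma k n : ℕ) : ℤ), by rw [L1.sigmaSer, coeff_mk]; push_cast; rfl⟩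

theorem h6_qD_mem (ℓ : ℕ) : L1.qD ∈ psInt ℓ := fun n => L1.H15.h15_qD_mem (intL ℓ) n

theorem h6_expand_mem {ℓ p : ℕ} (hp0 : p ≠ 0) {F : PowerSeries ℂ} (hF : F ∈ psInt ℓ) :
    PowerSeries.expand p hp0 F ∈ psInt ℓ := by
  intro n
  rw [PowerSeries.coeff_expand]
  split_ifs
  · exact hF _
  · exact Subring.zero_mem _

theorem h6_expand_mem_psMul {ℓ p : ℕ} (hp0 : p ≠ 0) {M : ℂ} {F : PowerSeries ℂ}
    (hF : F ∈ psMul ℓ M) : PowerSeries.expand p hp0 F ∈ psMul ℓ M := by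
  intro n
  rw [PowerSeries.coeff_expand]
  split_ifs
  · exact hF _
  · exact ⟨0, Subring.zero_mem _, by simp⟩

/-- `1728 Δ = E₄³ - E₆²` for the `q`-expansions. -/
theorem h6_qD_1728 : (1728 : PowerSeries ℂ) * L1.qD = L1.qE4 ^ 3 - L1.qE6 ^ 2 := by
  have h := Fermat.Agent.S23.R1.discriminant_qExpansion_eq
  rw [L1.qD, L1.qE4, L1.qE6, ← h]
  ext n
  rw [PowerSeries.coeff_smul]
  have : (1728 : PowerSeries ℂ) = C (1728 : ℂ) := by
    rw [map_ofNat]
  rw [this, coeff_C_mul]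
  rfl

theorem h6_cancel_1728 (a b : PowerSeries ℂ) (h : 1728 * a = 1728 * b) : a = b := by
  have h0 : (1728 : PowerSeries ℂ) ≠ 0 := by
    have : (1728 : PowerSeries ℂ) = C (1728 : ℂ) := by rw [map_ofNat]
    rw [this]
    intro h'
    have := congrArg (coeff 0) h'
    simp at this
  exact mul_left_cancel₀ h0 h

/-- **The quartic modulo 2.** -/
theorem h6_quartic_mod_two (p : ℕ) (hp0 : p ≠ 0) (X g : PowerSeries ℂ) (u : ℂ)
    (hu : u = 1 ∨ u = 5) (hg : g ∈ psInt 2) (hX : X = C u + C (8 : ℂ) * g) :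
    C (1 / 256 : ℂ) * H6.quartic (PowerSeries.expand p hp0 L1.qE4)
        (PowerSeries.expand p hp0 L1.qE6) X - PowerSeries.expand p hp0 L1.qD ∈
      psMul 2 ((2 : ℕ) : ℂ) := by
  set e : PowerSeries ℂ →ₐ[ℂ] PowerSeries ℂ := PowerSeries.expand p hp0 with he
  set S := e (L1.sigmaSer 5) with hS
  set T := e tSer with hT
  have hSm : S ∈ psInt 2 := h6_expand_mem hp0 (h6_sigmaSer_mem 2 5)
  have hTm : T ∈ psInt 2 := h6_expand_mem hp0 (h6_tSer_mem 2)
  have hC : ∀ c : ℂ, e (C c) = C c := fun c => PowerSeries.expand_C p hp0 c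
  have h240 : (C (240 : ℂ) : PowerSeries ℂ) = 240 := by rw [map_ofNat]
  have h504 : (C (504 : ℂ) : PowerSeries ℂ) = 504 := by rw [map_ofNat]
  have h24 : (C (24 : ℂ) : PowerSeries ℂ) = 24 := by rw [map_ofNat]
  have h8 : (C (8 : ℂ) : PowerSeries ℂ) = 8 := by rw [map_ofNat]
  have hE4 : e L1.qE4 = 1 + 240 * (S + 24 * T) := by
    rw [L1.H15.h15_qE4_eq, h6_sigmaSer_three, map_add, map_one, map_mul, map_add, map_mul, hC, hC,
      h240, h24]
  have hE6 : e L1.qE6 = 1 - 504 * S := by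
    rw [L1.H15.h15_qE6_eq, map_sub, map_one, map_mul, hC, h504]
  have hD : e L1.qD = H6.deltaPoly T S := by
    apply h6_cancel_1728
    have h := congrArg e h6_qD_1728
    rw [map_mul, map_sub, map_pow, map_pow, hE4, hE6] at h
    have h1728 : e (1728 : PowerSeries ℂ) = 1728 := by
      have : (1728 : PowerSeries ℂ) = C (1728 : ℂ) := by rw [map_ofNat]
      rw [this, hC]
    rw [h1728] at h
    exact h.trans (H6.eisenstein_cube_sub_sq T S)
  have key : ∀ W : PowerSeries ℂ, W ∈ psInt 2 →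
      H6.quartic (e L1.qE4) (e L1.qE6) X = 256 * H6.deltaPoly T S + 512 * W →
      C (1 / 256 : ℂ) * H6.quartic (e L1.qE4) (e L1.qE6) X - e L1.qD ∈ psMul 2 ((2 : ℕ) : ℂ) := by
    intro W hW h
    have e1 : C (1 / 256 : ℂ) * H6.quartic (e L1.qE4) (e L1.qE6) X - e L1.qD =
        C (((2 : ℕ) : ℂ)) * W := by
      rw [h, hD]
      have h256 : (256 : PowerSeries ℂ) = C (256 : ℂ) := by rw [map_ofNat]
      have h512 : (512 : PowerSeries ℂ) = C (512 : ℂ) := by rw [map_ofNat]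
      rw [h256, h512, mul_add, ← mul_assoc, ← mul_assoc, ← map_mul, ← map_mul]
      have a1 : (1 / 256 : ℂ) * 256 = 1 := by norm_num
      have a2 : (1 / 256 : ℂ) * 512 = ((2 : ℕ) : ℂ) := by norm_num
      rw [a1, a2, map_one, one_mul]
      ring
    rw [e1]
    exact C_mul_mem_psMul _ hW
  rcases hu with rfl | rfl
  · refine key (H6.corrOne g T S) ?_ ?_
    · unfold H6.corrOne
      repeat (first
        | exact hg | exact hTm | exact hSm | exact ofNat_mem _ _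
        | apply Subring.pow_mem
        | apply Subring.sub_mem
        | apply Subring.add_mem
        | apply Subring.mul_mem
        | apply Subring.neg_mem)
    · rw [hE4, hE6, hX, map_one, h8, H6.quartic_one]
  · refine key (H6.corrFive g T S) ?_ ?_
    · unfold H6.corrFive
      repeat (first
        | exact hg | exact hTm | exact hSm | exact ofNat_mem _ _
        | apply Subring.pow_mem
        | apply Subring.sub_mem
        | apply Subring.add_mem
        | apply Subring.mul_mem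
        | apply Subring.neg_mem)
    · rw [hE4, hE6, hX, h8]
      have : (C (5 : ℂ) : PowerSeries ℂ) = 5 := by rw [map_ofNat]
      rw [this, H6.quartic_five]

end Fermat.Agent.S16x.Up2
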