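import Mathlib
import Fermat.Agent.S16x.Conj.Defs
import Fermat.Agent.S16x.L1.Defs
import Fermat.Agent.S16x.Up2.H6_Alg
import Fermat.Agent.S23.H1_Conj

/-!
# S16, leaf [UP2b] (helper6): the form `Z = K(G) / 256` of weight `8` and its conjugates

For `G ∈ M₂(Γ₀(p))`: `Z := (27 G⁴ - 18 E₄ G² - 8 E₆ G - E₄²) / 256 ∈ M₈(Γ₀(p))`; its conjugates are
`Z ∣ γ = K(G ∣ γ) / 256` (`E₄`, `E₆` have level one), and the `t`-expansions are computed by the
ring-homomorphism property of `tExp` (`Conj.StRing`, `Conj.StDescent`).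
-/

set_option autoImplicit false

open UpperHalfPlane ModularForm CongruenceSubgroup PowerSeries

open scoped MatrixGroups ModularForm Manifold

noncomputable section

namespace Fermat.Agent.S16x.Up2

/-- The function `K(E₄, E₆, g) / 256`. -/
def zFun (g : ℍ → ℂ) : ℍ → ℂ :=
  (1 / 256 : ℂ) • ((27 : ℂ) • (g * (g * (g * g))) + ((-18 : ℂ) • (⇑E₄ * (g * g)) +
    ((-8 : ℂ) • (⇑E₆ * g) + (-1 : ℂ) • (⇑E₄ * ⇑E₄))))

/-- The modular form `Z = K(G) / 256`. -/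
def zForm (p : ℕ) (G : ModularForm (Gamma0 p) 2) : ModularForm (Gamma0 p) 8 :=
  (1 / 256 : ℂ) • ((27 : ℂ) • (ModularForm.mcast (by norm_num) (G.mul (G.mul (G.mul G))) :
      ModularForm (Gamma0 p) 8) +
    ((-18 : ℂ) • (ModularForm.mcast (by norm_num)
      ((Fermat.Agent.S23.R5.restrictMF p E₄).mul (G.mul G)) : ModularForm (Gamma0 p) 8) +
    ((-8 : ℂ) • (ModularForm.mcast (by norm_num)
      ((Fermat.Agent.S23.R5.restrictMF p E₆).mul G) : ModularForm (Gamma0 p) 8) +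
    (-1 : ℂ) • (ModularForm.mcast (by norm_num)
      ((Fermat.Agent.S23.R5.restrictMF p E₄).mul (Fermat.Agent.S23.R5.restrictMF p E₄)) :
        ModularForm (Gamma0 p) 8))))

theorem coe_zForm (p : ℕ) (G : ModularForm (Gamma0 p) 2) : ⇑(zForm p G) = zFun ⇑G := by
  ext z
  simp only [zForm, zFun, smul_apply, add_apply, ModularForm.mcast_apply,
    Pi.smul_apply, Pi.add_apply, Pi.mul_apply, smul_eq_mul]
  repeat rw [ModularForm.coe_mul]
  simp only [Pi.mul_apply, Fermat.Agent.S23.R5.coe_restrictMF]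


/-- Level one forms are invariant under `SL(2, ℤ)`. -/
theorem h6_slash_levelOne {k : ℤ} (F : ModularForm 𝒮ℒ k) (A : SL(2, ℤ)) :
    (⇑F : ℍ → ℂ) ∣[k] A = ⇑F := by
  rw [ModularForm.SL_slash]
  exact SlashInvariantFormClass.slash_action_eq F _ ⟨A, rfl⟩

/-- The conjugates of `Z = K(G) / 256` are `K(G ∣ γ) / 256`. -/
theorem h6_zFun_slash (g : ℍ → ℂ) (A : SL(2, ℤ)) :
    (zFun g) ∣[(8 : ℤ)] A = zFun (g ∣[(2 : ℤ)] A) := by
  have h4 : (g * (g * (g * g))) ∣[(8 : ℤ)] A =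
      (g ∣[(2 : ℤ)] A) * ((g ∣[(2 : ℤ)] A) * ((g ∣[(2 : ℤ)] A) * (g ∣[(2 : ℤ)] A))) := by
    have e1 := ModularForm.mul_slash_SL2 2 2 A g g
    have e2 := ModularForm.mul_slash_SL2 2 (2 + 2) A g (g * g)
    have e3 := ModularForm.mul_slash_SL2 2 (2 + (2 + 2)) A g (g * (g * g))
    rw [e2, e1] at e3
    exact e3
  have h2 : (⇑E₄ * (g * g)) ∣[(8 : ℤ)] A = ⇑E₄ * ((g ∣[(2 : ℤ)] A) * (g ∣[(2 : ℤ)] A)) := by
    have e1 := ModularForm.mul_slash_SL2 2 2 A g g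
    have e2 := ModularForm.mul_slash_SL2 4 (2 + 2) A (⇑E₄) (g * g)
    rw [e1, h6_slash_levelOne] at e2
    exact e2
  have h1 : (⇑E₆ * g) ∣[(8 : ℤ)] A = ⇑E₆ * (g ∣[(2 : ℤ)] A) := by
    have e2 := ModularForm.mul_slash_SL2 6 2 A (⇑E₆) g
    rw [h6_slash_levelOne] at e2
    exact e2
  have h0 : (⇑E₄ * ⇑E₄) ∣[(8 : ℤ)] A = ⇑E₄ * ⇑E₄ := by
    have e2 := ModularForm.mul_slash_SL2 4 4 A (⇑E₄) (⇑E₄)
    rw [h6_slash_levelOne] at e2
    exact e2
  unfold zFun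
  rw [ModularForm.SL_smul_slash, SlashAction.add_slash, SlashAction.add_slash,
    SlashAction.add_slash, ModularForm.SL_smul_slash, ModularForm.SL_smul_slash,
    ModularForm.SL_smul_slash, ModularForm.SL_smul_slash, h4, h2, h1, h0]

theorem h6_cj_zFun (p : ℕ) (g : ℍ → ℂ) (x : OnePoint (ZMod p)) :
    Conj.cj p 8 (zFun g) x = zFun (Conj.cj p 2 g x) :=
  h6_zFun_slash g (Conj.rep p x)

/-- Level one forms are `Nice`. -/
theorem h6_nice_levelOne (p : ℕ) {k : ℤ} (F : ModularForm 𝒮ℒ k) : Conj.Nice p (⇑F) := by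
  refine ⟨?_, ModularFormClass.holo F, ModularFormClass.bdd_at_infty F⟩
  have h1 : Function.Periodic ((⇑F : ℍ → ℂ) ∘ ofComplex) (1 : ℝ) :=
    SlashInvariantFormClass.periodic_comp_ofComplex F one_mem_strictPeriods_SL
  simpa using h1.nat_mul p

/-- The `t`-expansion of a level one form. -/
theorem h6_tExp_levelOne (p : ℕ) [Fact p.Prime] (hDesc : Conj.StDescent p) {k : ℤ}
    (F : ModularForm 𝒮ℒ k) :
    Conj.tExp p (⇑F) =
      PowerSeries.expand p (Fact.out : p.Prime).ne_zero (UpperHalfPlane.qExpansion 1 F) :=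
  hDesc (⇑F) (SlashInvariantFormClass.periodic_comp_ofComplex F one_mem_strictPeriods_SL)
    (ModularFormClass.holo F) (ModularFormClass.bdd_at_infty F)

/-- **The `t`-expansion of `K(g) / 256`** for a `Nice` function `g`. -/
theorem h6_tExp_zFun (p : ℕ) [Fact p.Prime] (hRing : Conj.StRing p) (hDesc : Conj.StDescent p)
    (g : ℍ → ℂ) (hg : Conj.Nice p g) :
    Conj.tExp p (zFun g) = C (1 / 256 : ℂ) *
      H6.quartic (PowerSeries.expand p (Fact.out : p.Prime).ne_zero L1.qE4)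
        (PowerSeries.expand p (Fact.out : p.Prime).ne_zero L1.qE6) (Conj.tExp p g) := by
  obtain ⟨hadd, hmul, hsmul, -, -⟩ := hRing
  have n4 := h6_nice_levelOne p E₄
  have n6 := h6_nice_levelOne p E₆
  have t4 : Conj.tExp p (⇑E₄) = PowerSeries.expand p (Fact.out : p.Prime).ne_zero L1.qE4 :=
    h6_tExp_levelOne p hDesc E₄
  have t6 : Conj.tExp p (⇑E₆) = PowerSeries.expand p (Fact.out : p.Prime).ne_zero L1.qE6 :=
    h6_tExp_levelOne p hDesc E₆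
  have sm : ∀ (c : ℂ) (F : PowerSeries ℂ), c • F = C c * F := fun c F => by
    ext n; simp
  -- the pieces
  obtain ⟨ngg, tgg⟩ := hmul g g hg hg
  obtain ⟨nggg, tggg⟩ := hmul g (g * g) hg ngg
  obtain ⟨ngggg, tgggg⟩ := hmul g (g * (g * g)) hg nggg
  obtain ⟨n4gg, t4gg⟩ := hmul (⇑E₄) (g * g) n4 ngg
  obtain ⟨n6g, t6g⟩ := hmul (⇑E₆) g n6 hg
  obtain ⟨n44, t44⟩ := hmul (⇑E₄) (⇑E₄) n4 n4
  obtain ⟨na, ta⟩ := hsmul 27 _ ngggg
  obtain ⟨nb, tb⟩ := hsmul (-18) _ n4gg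
  obtain ⟨nc, tc⟩ := hsmul (-8) _ n6g
  obtain ⟨nd, td⟩ := hsmul (-1) _ n44
  obtain ⟨ncd, tcd⟩ := hadd _ _ nc nd
  obtain ⟨nbcd, tbcd⟩ := hadd _ _ nb ncd
  obtain ⟨nabcd, tabcd⟩ := hadd _ _ na nbcd
  obtain ⟨nz, tz⟩ := hsmul (1 / 256) _ nabcd
  unfold zFun
  rw [tz, tabcd, tbcd, tcd, ta, tb, tc, td, tgggg, tggg, tgg, t4gg, tgg, t6g, t44, t4, t6, sm, sm,
    sm, sm, sm]
  unfold H6.quartic
  have h27 : (C (27 : ℂ) : PowerSeries ℂ) = 27 := by rw [map_ofNat]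
  have h18 : (C (-18 : ℂ) : PowerSeries ℂ) = -18 := by rw [map_neg, map_ofNat]
  have h8 : (C (-8 : ℂ) : PowerSeries ℂ) = -8 := by rw [map_neg, map_ofNat]
  have h1 : (C (-1 : ℂ) : PowerSeries ℂ) = -1 := by rw [map_neg, map_one]
  rw [h27, h18, h8, h1]
  ring

theorem h6_nice_zFun (p : ℕ) [Fact p.Prime] (hRing : Conj.StRing p)
    (g : ℍ → ℂ) (hg : Conj.Nice p g) : Conj.Nice p (zFun g) := by
  obtain ⟨hadd, hmul, hsmul, -, -⟩ := hRing
  have n4 := h6_nice_levelOne p E₄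
  have n6 := h6_nice_levelOne p E₆
  have ngg := (hmul g g hg hg).1
  have nggg := (hmul g (g * g) hg ngg).1
  have ngggg := (hmul g (g * (g * g)) hg nggg).1
  have n4gg := (hmul (⇑E₄) (g * g) n4 ngg).1
  have n6g := (hmul (⇑E₆) g n6 hg).1
  have n44 := (hmul (⇑E₄) (⇑E₄) n4 n4).1
  exact (hsmul (1 / 256) _ (hadd _ _ (hsmul 27 _ ngggg).1 (hadd _ _ (hsmul (-18) _ n4gg).1
    (hadd _ _ (hsmul (-8) _ n6g).1 (hsmul (-1) _ n44).1).1).1).1).1

end Fermat.Agent.S16x.Up2
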