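import Mathlib
import Fermat.Agent.S16x.Asm.Defs
import Fermat.Agent.S16x.Up2.H6_Ser
import Fermat.Agent.S16x.Up2.H6_Z

/-!
# S16, leaf [UP2b] (helper6): `p ≡ 3 mod 4` ⇒ no `G ∈ M₂(Γ₀(p))`, `2`-integral, `G ≡ 1 mod 8`

`Asm.StUP2b p` from the [CONJ] leaves (`Conj.StMain`, `StInfty`, `StTwo`, `StRing`, `StNice`,
`StDescent`) and the Sturm bound modulo `2` (`L1.StORD`).

Proof (findings #151).  The conjugates of `G` have `t`-expansions `≡ 1` (the form itself) or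
`≡ -1/p ∈ {1, 5}` modulo `8`.  For `X ≡ 1, 5 mod 8`:
`K(X) = 27 X⁴ - 18 E₄ X² - 8 E₆ X - E₄² ≡ 256 Δ mod 512`.  Hence every conjugate of
`Z = K(G) / 256 ∈ M₈(Γ₀(p))` is `≡ Δ(t^p) mod 2`, the norm `N(Z) ∈ M_{8(p+1)}(SL₂(ℤ))` is
`≡ Δ^{p+1} mod 2`, of order `p + 1 > 8 (p + 1) / 12`: contradiction with the Sturm bound.
-/

set_option autoImplicit false

open UpperHalfPlane ModularForm CongruenceSubgroup PowerSeries

open scoped MatrixGroups ModularForm Manifold

noncomputable section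

namespace Fermat.Agent.S16x.Up2

/-- `IsOneMod` in the vocabulary of `psMul`. -/
theorem h6_of_isOneMod (p : ℕ) [Fact p.Prime] (ℓ M : ℕ) (hℓ : ℓ.Prime)
    (G : ModularForm (Gamma0 p) 2) (h : Asm.IsOneMod p ℓ M G) :
    qExpansion 1 G - 1 ∈ psMul ℓ (M : ℂ) := by
  obtain ⟨h0, b, hb, hk⟩ := h
  have hbc : b.Coprime ℓ := (Nat.coprime_comm.mp ((Nat.Prime.coprime_iff_not_dvd hℓ).mpr hb))
  have hb0 : b ≠ 0 := fun h => hb (h ▸ dvd_zero ℓ)
  intro n
  rcases Nat.eq_zero_or_pos n with rfl | hn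
  · refine ⟨0, Subring.zero_mem _, ?_⟩
    have : (qExpansion 1 G).coeff 0 = 1 := h0
    rw [map_sub, this]
    simp
  · obtain ⟨c, hc⟩ := hk n hn
    refine ⟨(c : ℂ) / (b : ℂ), div_mem_intL ℓ c hbc hb0, ?_⟩
    have hc' : (b : ℂ) * (qExpansion 1 G).coeff n = (M : ℂ) * c := hc
    have hb' : (b : ℂ) ≠ 0 := Nat.cast_ne_zero.mpr hb0
    rw [map_sub, PowerSeries.coeff_one, if_neg (Nat.pos_iff_ne_zero.mp hn), sub_zero]
    field_simp
    linear_combination hc'

theorem h6_zeta_pow (p : ℕ) (hp0 : p ≠ 0) : Conj.zeta p ^ p = 1 := by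
  have hp' : (p : ℂ) ≠ 0 := Nat.cast_ne_zero.mpr hp0
  rw [Conj.zeta, ← Complex.exp_nat_mul]
  have : (p : ℂ) * (2 * Real.pi * Complex.I / p) = 2 * Real.pi * Complex.I := by
    field_simp
  rw [this, Complex.exp_two_pi_mul_I]

theorem h6_zeta_mem (p : ℕ) (hp0 : p ≠ 0) (ℓ : ℕ) (n : ℕ) : Conj.zeta p ^ n ∈ intL ℓ := by
  apply Subring.pow_mem
  apply mem_intL_of_isIntegral
  apply IsIntegral.of_pow (Nat.pos_of_ne_zero hp0)
  rw [h6_zeta_pow p hp0]
  exact isIntegral_one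

/-- **The conjugates of `G` modulo `8`.** -/
theorem h6_conj_mod_eight (p : ℕ) [Fact p.Prime] (hp4 : p % 4 = 3)
    (hInfty : Conj.StInfty p) (hTwo : Conj.StTwo p)
    (G : ModularForm (Gamma0 p) 2) (hG : qExpansion 1 G - 1 ∈ psMul 2 ((8 : ℕ) : ℂ))
    (x : OnePoint (ZMod p)) :
    ∃ (u : ℂ) (g : PowerSeries ℂ), (u = 1 ∨ u = 5) ∧ g ∈ psInt 2 ∧
      Conj.tExp p (Conj.cj p 2 G x) = C u + C (8 : ℂ) * g := by
  have hp0 : p ≠ 0 := (Fact.out : p.Prime).ne_zero
  have hp' : (p : ℂ) ≠ 0 := Nat.cast_ne_zero.mpr hp0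
  have hpc : p.Coprime 2 := by
    have h2 : ¬ 2 ∣ p := by omega
    exact Nat.coprime_comm.mp ((Nat.Prime.coprime_iff_not_dvd Nat.prime_two).mpr h2)
  have h8 : (((8 : ℕ) : ℂ)) = 8 := by norm_num
  rw [h8] at hG
  cases x with
  | infty =>
    obtain ⟨W, hW, e⟩ := exists_eq_C_mul hG
    refine ⟨1, PowerSeries.expand p hp0 W, Or.inl rfl, h6_expand_mem hp0 hW, ?_⟩
    rw [hInfty 2 G]
    have : qExpansion 1 G = 1 + C (8 : ℂ) * W := by rw [← e]; ring
    rw [this, map_add, map_one, map_mul, PowerSeries.expand_C, map_one]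
  | coe j =>
    rw [hTwo G j]
    -- the unit `u ≡ -1/p mod 8`
    obtain ⟨u, m, hu, hum⟩ : ∃ (u : ℂ) (m : ℤ), (u = 1 ∨ u = 5) ∧
        (1 : ℂ) + u * p = 8 * m := by
      have h8 : p % 8 = 3 ∨ p % 8 = 7 := by omega
      rcases h8 with h | h
      · refine ⟨5, (1 + 5 * (p : ℤ)) / 8, Or.inr rfl, ?_⟩
        have hd : (8 : ℤ) ∣ 1 + 5 * (p : ℤ) := by omega
        obtain ⟨t, ht⟩ := hd
        rw [ht, Int.mul_ediv_cancel_left _ (by norm_num : (8 : ℤ) ≠ 0)]
        have : ((1 + 5 * (p : ℤ) : ℤ) : ℂ) = ((8 * t : ℤ) : ℂ) := by rw [ht]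
        push_cast at this
        exact this
      · refine ⟨1, (1 + (p : ℤ)) / 8, Or.inl rfl, ?_⟩
        have hd : (8 : ℤ) ∣ 1 + (p : ℤ) := by omega
        obtain ⟨t, ht⟩ := hd
        rw [ht, Int.mul_ediv_cancel_left _ (by norm_num : (8 : ℤ) ≠ 0)]
        have : ((1 + (p : ℤ) : ℤ) : ℂ) = ((8 * t : ℤ) : ℂ) := by rw [ht]
        push_cast at this
        rw [one_mul]
        exact this
    have hinvp : (1 : ℂ) / (p : ℂ) ∈ intL 2 := by
      have := div_mem_intL 2 1 hpc hp0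
      simpa using this
    -- the coefficients
    choose r hr hre using hG
    refine ⟨u, PowerSeries.mk fun n =>
      if n = 0 then -((m : ℂ) / (p : ℂ)) - (1 / (p : ℂ)) * r 0
      else -(1 / (p : ℂ)) * r (p * n) * Conj.zeta p ^ (j.val * n),
      hu, ?_, ?_⟩
    · intro n
      rw [coeff_mk]
      split_ifs with hn
      · exact Subring.sub_mem _ (Subring.neg_mem _ (div_mem_intL 2 m hpc hp0))
          (Subring.mul_mem _ hinvp (hr 0))
      · exact Subring.mul_mem _ (Subring.mul_mem _ (Subring.neg_mem _ hinvp) (hr _))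
          (h6_zeta_mem p hp0 2 _)
    · ext n
      rw [Conj.conjSeries, coeff_mk, map_add, coeff_C_mul, coeff_mk, coeff_C]
      by_cases hn : n = 0
      · subst hn
        have h0 := hre 0
        rw [map_sub, PowerSeries.coeff_one, if_pos rfl] at h0
        rw [if_pos rfl, if_pos rfl, Nat.mul_zero, Nat.mul_zero, pow_zero]
        have h1 : (qExpansion 1 G).coeff 0 = 1 + 8 * r 0 := by linear_combination h0
        rw [h1]
        field_simp
        linear_combination (-1 : ℂ) * hum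
      · have hpn : p * n ≠ 0 := Nat.mul_ne_zero hp0 hn
        have := hre (p * n)
        rw [map_sub, PowerSeries.coeff_one, if_neg hpn, sub_zero] at this
        rw [if_neg hn, if_neg hn, this]
        ring

theorem h6_constantCoeff_etaU : coeff 0 L1.H15.etaU = 1 := by
  have h := L1.H15.h15_coeff_one_qD
  rw [L1.H15.h15_qD_eq] at h
  have e : coeff 1 (X * L1.H15.etaU) = coeff 0 L1.H15.etaU := by
    rw [show (1 : ℕ) = 0 + 1 from rfl, PowerSeries.coeff_succ_X_mul]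
  rw [← e]
  exact h

theorem h6_coeff_qD_pow_lt {m n : ℕ} (h : n < m) : coeff n (L1.qD ^ m) = 0 := by
  rw [L1.H15.h15_qD_eq, mul_pow, PowerSeries.coeff_X_pow_mul', if_neg (by omega)]

theorem h6_coeff_qD_pow_self (m : ℕ) : coeff m (L1.qD ^ m) = 1 := by
  rw [L1.H15.h15_qD_eq, mul_pow, PowerSeries.coeff_X_pow_mul', if_pos le_rfl, Nat.sub_self,
    PowerSeries.coeff_zero_eq_constantCoeff, map_pow,
    ← PowerSeries.coeff_zero_eq_constantCoeff_apply, h6_constantCoeff_etaU, one_pow]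

/-- **[UP2b]** from the [CONJ] leaves and the Sturm bound modulo `2`. -/
theorem h6_stUP2b_of (p : ℕ) [Fact p.Prime] (hMain : Conj.StMain p) (hInfty : Conj.StInfty p)
    (hTwo : Conj.StTwo p) (hRing : Conj.StRing p) (hNice : Conj.StNice p)
    (hDesc : Conj.StDescent p) (hORD : L1.StORD) : Asm.StUP2b p := by
  intro _ hp4 G hG
  have hp0 : p ≠ 0 := (Fact.out : p.Prime).ne_zero
  have : NeZero p := ⟨hp0⟩
  have hG8 := h6_of_isOneMod p 2 8 Nat.prime_two G hG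
  have hH : ∀ x, Conj.tExp p (Conj.cj p 8 (zForm p G) x) -
      PowerSeries.expand p (Fact.out : p.Prime).ne_zero L1.qD ∈ psMul 2 ((2 : ℕ) : ℂ) := by
    intro x
    obtain ⟨u, g, hu, hg, e⟩ := h6_conj_mod_eight p hp4 hInfty hTwo G hG8 x
    rw [coe_zForm, h6_cj_zFun, h6_tExp_zFun p hRing hDesc _ (hNice 2 G x)]
    exact h6_quartic_mod_two p _ _ g u hu hg e
  have hprod : ∏ _x : OnePoint (ZMod p), L1.qD = L1.qD ^ (p + 1) := by
    rw [Finset.prod_const, Finset.card_univ, h6_card_onePoint]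
  have key := h6_norm_order p hMain hORD 2 (by norm_num) 8 (zForm p G) (fun _ => L1.qD)
    (fun _ => h6_qD_mem 2) hH (p + 1) ?_ ?_
  · push_cast at key
    omega
  · intro n hn
    refine ⟨0, Subring.zero_mem _, ?_⟩
    rw [hprod, h6_coeff_qD_pow_lt hn, mul_zero]
  · rintro ⟨r, hr, e⟩
    rw [hprod, h6_coeff_qD_pow_self] at e
    exact one_ne_mul_of_mem Nat.prime_two hr e

end Fermat.Agent.S16x.Up2
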